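import Mathlib

/-!
# Counting `n`-th roots with a character of order `n`
-/

set_option autoImplicit false

noncomputable section

namespace Fermat.Agent.Cor.Diary

open Finset

variable {F : Type*} [Field F] [Fintype F] [DecidableEq F] {n : ℕ} {χ : MulChar F ℂ}

omit [DecidableEq F] in
theorem exists_pow_eq_of_apply_eq_one (hχ : orderOf χ = n) {u : F} (hu : χ u = 1) :
    ∃ y, y ^ n = u := by
  obtain ⟨g, hg⟩ := IsCyclic.exists_generator (α := Fˣ)
  have hu0 : u ≠ 0 := by
    rintro rfl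
    rw [MulChar.map_zero] at hu
    exact zero_ne_one hu
  obtain ⟨k, hk⟩ : ∃ k : ℕ, g ^ k = Units.mk0 u hu0 :=
    (mem_powers_iff_mem_zpowers.mpr (hg _) : Units.mk0 u hu0 ∈ Submonoid.powers g)
  have hk' : (g : F) ^ k = u := by
    have := congrArg (Units.val) hk
    simpa using this
  have h1 : χ ^ k = 1 := by
    rw [MulChar.eq_iff hg, MulChar.pow_apply_coe, ← map_pow, hk', hu, MulChar.one_apply_coe]
  obtain ⟨l, rfl⟩ : n ∣ k := by
    rw [← hχ]
    exact orderOf_dvd_of_pow_eq_one h1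
  exact ⟨(g : F) ^ l, by rw [← pow_mul, mul_comm l n, hk']⟩

omit [DecidableEq F] in
theorem exists_isPrimitiveRoot (hn : n ∣ Fintype.card F - 1) :
    ∃ ζ : F, IsPrimitiveRoot ζ n := by
  classical
  obtain ⟨g, hg⟩ := IsCyclic.exists_ofOrder_eq_natCard (α := Fˣ)
  obtain ⟨k, hk⟩ := hn
  have hc : orderOf g = k * n := by
    rw [hg, Nat.card_eq_fintype_card, Fintype.card_units, hk, mul_comm]
  have h1 : IsPrimitiveRoot ((g : F)) (orderOf g) := by
    rw [IsPrimitiveRoot.coe_units_iff]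
    exact IsPrimitiveRoot.orderOf g
  exact ⟨_, h1.pow (orderOf_pos g) hc⟩

theorem card_pow_eq_nat (hn : n ∣ Fintype.card F - 1) (hn0 : 0 < n) {u : F} (hu : u ≠ 0) :
    (univ.filter fun x : F => x ^ n = u).card = if ∃ y : F, y ^ n = u then n else 0 := by
  obtain ⟨ζ, hζ⟩ := exists_isPrimitiveRoot (F := F) hn
  have h1 : (univ.filter fun x : F => x ^ n = u) = (Polynomial.nthRoots n u).toFinset := by
    ext x
    simp [Polynomial.mem_nthRoots hn0]
  rw [h1, Multiset.toFinset_card_of_nodup (hζ.nthRoots_nodup hu), hζ.card_nthRoots]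
  split_ifs <;> rfl

/-- The number of solutions of `x ^ n = u`. -/
theorem card_pow_eq (hn0 : 0 < n) (hχ : orderOf χ = n) (u : F) :
    ((univ.filter fun x : F => x ^ n = u).card : ℂ) = ∑ i ∈ range n, χ u ^ i := by
  have hn : n ∣ Fintype.card F - 1 := by
    rw [← hχ]
    exact MulChar.orderOf_dvd_card_sub_one F χ
  by_cases hu : u = 0
  · subst hu
    have h1 : (univ.filter fun x : F => x ^ n = 0) = {0} := by
      ext x
      simp [pow_eq_zero_iff hn0.ne']
    rw [h1, card_singleton, MulChar.map_zero, Finset.sum_eq_single_of_mem 0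
      (mem_range.mpr hn0) (fun i _ hi => zero_pow hi), pow_zero, Nat.cast_one]
  · rw [card_pow_eq_nat hn hn0 hu]
    have hpow : χ u ^ n = 1 := by
      have h2 := MulChar.pow_apply_coe χ n (Units.mk0 u hu)
      rw [← hχ, pow_orderOf_eq_one, MulChar.one_apply_coe, hχ] at h2
      exact h2.symm
    split_ifs with h
    · obtain ⟨y, rfl⟩ := h
      have hy : y ≠ 0 := by
        rintro rfl
        exact hu (zero_pow hn0.ne')
      have h2 : χ (y ^ n) = 1 := by
        rw [map_pow]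
        have h3 := MulChar.pow_apply_coe χ n (Units.mk0 y hy)
        rw [← hχ, pow_orderOf_eq_one, MulChar.one_apply_coe, hχ] at h3
        exact h3.symm
      simp [h2]
    · have h2 : χ u ≠ 1 := fun h3 => h (exists_pow_eq_of_apply_eq_one hχ h3)
      rw [geom_sum_eq h2, hpow, sub_self, zero_div, Nat.cast_zero]

/-- The number of solutions of `x ^ n + y ^ m = 1`. -/
theorem card_add_pow_eq {m : ℕ} {ψ : MulChar F ℂ} (hn0 : 0 < n) (hm0 : 0 < m)
    (hχ : orderOf χ = n) (hψ : orderOf ψ = m) :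
    ((univ.filter fun P : F × F => P.1 ^ n + P.2 ^ m = 1).card : ℂ) =
      ∑ i ∈ range n, ∑ j ∈ range m, ∑ u : F, χ u ^ i * ψ (1 - u) ^ j := by
  have h1 : ((univ.filter fun P : F × F => P.1 ^ n + P.2 ^ m = 1).card : ℂ) =
      ∑ u : F, ((univ.filter fun x : F => x ^ n = u).card : ℂ) *
        ((univ.filter fun y : F => y ^ m = 1 - u).card : ℂ) := by
    rw [card_eq_sum_card_fiberwise (f := fun P : F × F => P.1 ^ n) (t := univ)
      (fun _ _ => by simp)]
    push_cast
    refine sum_congr rfl fun u _ => ?_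
    rw [← Nat.cast_mul, ← card_product]
    congr 2
    ext ⟨x, y⟩
    simp only [mem_filter, mem_univ, true_and, mem_product]
    constructor
    · rintro ⟨h1, rfl⟩
      exact ⟨rfl, by rw [← h1]; ring⟩
    · rintro ⟨rfl, h2⟩
      exact ⟨by rw [h2]; ring, rfl⟩
  rw [h1]
  simp only [card_pow_eq hn0 hχ, card_pow_eq hm0 hψ, sum_mul_sum]
  rw [sum_comm]
  refine sum_congr rfl fun i _ => ?_
  rw [sum_comm]

variable {ψ : MulChar F ℂ}

omit [DecidableEq F] in
theorem sum_zero_zero : ∑ u : F, χ u ^ 0 * ψ (1 - u) ^ 0 = Fintype.card F := by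
  simp

omit [DecidableEq F] in
theorem sum_pow_zero {i : ℕ} (hi : i ≠ 0) (h : χ ^ i ≠ 1) :
    ∑ u : F, χ u ^ i * ψ (1 - u) ^ 0 = 0 := by
  rw [← MulChar.sum_eq_zero_of_ne_one h]
  exact sum_congr rfl fun u _ => by rw [pow_zero, mul_one, MulChar.pow_apply' _ hi]

omit [DecidableEq F] in
theorem sum_zero_pow {j : ℕ} (hj : j ≠ 0) (h : ψ ^ j ≠ 1) :
    ∑ u : F, χ u ^ 0 * ψ (1 - u) ^ j = 0 := by
  rw [← MulChar.sum_eq_zero_of_ne_one h, ← (Equiv.subLeft (1 : F)).sum_comp]
  exact sum_congr rfl fun u _ => by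
    rw [pow_zero, one_mul, MulChar.pow_apply' _ hj, Equiv.subLeft_apply, sub_sub_cancel]

omit [DecidableEq F] in
theorem sum_pow_pow {i j : ℕ} (hi : i ≠ 0) (hj : j ≠ 0) :
    ∑ u : F, χ u ^ i * ψ (1 - u) ^ j = jacobiSum (χ ^ i) (ψ ^ j) := by
  rw [jacobiSum]
  exact sum_congr rfl fun u _ => by rw [MulChar.pow_apply' _ hi, MulChar.pow_apply' _ hj]

omit [DecidableEq F] in
theorem jacobiSum_inv_eq_conj : jacobiSum χ⁻¹ ψ⁻¹ = (starRingEnd ℂ) (jacobiSum χ ψ) := by
  rw [jacobiSum, jacobiSum, map_sum]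
  refine sum_congr rfl fun u _ => ?_
  rw [map_mul, ← MulChar.star_apply' χ, ← MulChar.star_apply' ψ]
  rfl

omit [DecidableEq F] in
/-- `|J(χ, ψ)|² = q`. -/
theorem jacobiSum_mul_conj (hχ : χ ≠ 1) (hψ : ψ ≠ 1) (h : χ * ψ ≠ 1) :
    jacobiSum χ ψ * (starRingEnd ℂ) (jacobiSum χ ψ) = Fintype.card F := by
  rw [← jacobiSum_inv_eq_conj]
  refine jacobiSum_mul_jacobiSum_inv ?_ hχ hψ h
  rw [ringChar.eq_zero (R := ℂ)]
  intro h0
  have := CharP.char_is_prime_or_zero F (ringChar F)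
  rw [← h0] at this
  rcases this with h1 | -
  · exact Nat.not_prime_zero h1
  · have h2 : CharZero F := by
      have h3 : CharP F 0 := by
        rw [h0]
        infer_instance
      exact CharP.charP_to_charZero F
    exact not_injective_infinite_finite (Nat.cast : ℕ → F) Nat.cast_injective

/-- The elements of `ℤ[μ]` for a quadratic `μ`. -/
theorem mem_adjoin_quadratic {μ : ℂ} {r t : ℤ} (h : μ ^ 2 = r * μ + t) {z : ℂ}
    (hz : z ∈ Algebra.adjoin ℤ {μ}) : ∃ a b : ℤ, z = a + b * μ := by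
  induction hz using Algebra.adjoin_induction with
  | mem x hx =>
    rw [Set.mem_singleton_iff] at hx
    exact ⟨0, 1, by rw [hx]; push_cast; ring⟩
  | algebraMap x => exact ⟨x, 0, by simp⟩
  | add x y _ _ hx hy =>
    obtain ⟨a, b, rfl⟩ := hx
    obtain ⟨c, d, rfl⟩ := hy
    exact ⟨a + c, b + d, by push_cast; ring⟩
  | mul x y _ _ hx hy =>
    obtain ⟨a, b, rfl⟩ := hx
    obtain ⟨c, d, rfl⟩ := hy
    exact ⟨a * c + b * d * t, a * d + b * c + b * d * r, by
      push_cast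
      linear_combination (b * d : ℂ) * h⟩

end Fermat.Agent.Cor.Diary
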