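import Fermat.Agent.Corollaries.Diary.Count

/-!
# The equation `x ^ 3 + y ^ 3 = 1` over a finite field, and the cubic character of `2`

* `card_cubic`: `q ≡ 1 mod 3`: `4 q = L ^ 2 + 27 M ^ 2`, `L ≡ 1 mod 3` and
  `#{x ^ 3 + y ^ 3 = 1} = q - 2 + L` (Gauss, Disquisitiones Arithmeticae, art. 358);
* `card_cubic_of_eq`: for a prime `p`, `L` is determined by `4 p = L ^ 2 + 27 M ^ 2`,
  `L ≡ 1 mod 3`;
* `two_cube_iff`: `2` is a cube modulo `p` if and only if `p = x ^ 2 + 27 * y ^ 2` (Gauss).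
-/

set_option autoImplicit false

noncomputable section

namespace Fermat.Agent.Cor.Diary

open Finset

section Field

variable {F : Type*} [Field F] [Fintype F] [DecidableEq F]

/-- **Gauss.** The number of solutions of `x ^ 3 + y ^ 3 = 1`. -/
theorem card_cubic (h3 : Fintype.card F % 3 = 1) : ∃ L M : ℤ, L % 3 = 1 ∧
    4 * (Fintype.card F : ℤ) = L ^ 2 + 27 * M ^ 2 ∧
    ((univ.filter fun P : F × F => P.1 ^ 3 + P.2 ^ 3 = 1).card : ℤ) =
      Fintype.card F - 2 + L := by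
  have hdvd : 3 ∣ Fintype.card F - 1 := by
    have := Fintype.card_pos (α := F)
    omega
  set μ : ℂ := Complex.exp (2 * Real.pi * Complex.I / (3 : ℕ)) with hμdef
  have hμ : IsPrimitiveRoot μ 3 := Complex.isPrimitiveRoot_exp 3 (by norm_num)
  obtain ⟨χ, hχ⟩ := MulChar.exists_mulChar_orderOf F hdvd hμ
  have hμ2 : μ ^ 2 + μ + 1 = 0 := by
    have h1 := hμ.geom_sum_eq_zero (by norm_num)
    simp only [sum_range_succ, range_zero, sum_empty] at h1
    linear_combination h1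
  have hχ3 : χ ^ 3 = 1 := by rw [← hχ, pow_orderOf_eq_one]
  have hχ1 : χ ≠ 1 := by
    rintro rfl
    rw [orderOf_one] at hχ
    norm_num at hχ
  have hχ2 : χ ^ 2 ≠ 1 := fun h => by
    have := orderOf_dvd_of_pow_eq_one h
    rw [hχ] at this
    norm_num at this
  have hinv : χ ^ 2 = χ⁻¹ := by
    rw [eq_inv_iff_mul_eq_one, ← pow_succ, hχ3]
  set J := jacobiSum χ χ with hJ
  have hJJ : J * (starRingEnd ℂ) J = Fintype.card F :=
    jacobiSum_mul_conj hχ1 hχ1 (by rwa [← pow_two])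
  obtain ⟨z, hz, hJz⟩ := exists_jacobiSum_eq_neg_one_add (F := F) (R := ℂ) (by norm_num) hχ3 hχ3
    hdvd hμ
  obtain ⟨a, b, rfl⟩ := mem_adjoin_quadratic (μ := μ) (r := -1) (t := -1)
    (by push_cast; linear_combination hμ2) hz
  -- the conjugate of `μ`
  have hconj : (starRingEnd ℂ) μ = -1 - μ := by
    have h1 : (starRingEnd ℂ) μ = μ⁻¹ := by
      rw [Complex.inv_def, Complex.normSq_eq_norm_sq, hμ.norm'_eq_one (by norm_num)]
      simp
    rw [h1]
    exact inv_eq_of_mul_eq_one_right (by linear_combination -hμ2)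
  have hJab : J = (3 * b - 1 : ℤ) + (3 * (b - a) : ℤ) * μ := by
    rw [hJ, hJz]
    push_cast
    linear_combination ((b : ℂ) * μ + a - 3 * b) * hμ2
  have hJc : (starRingEnd ℂ) J = (3 * b - 1 : ℤ) + (3 * (b - a) : ℤ) * (-1 - μ) := by
    rw [hJab, map_add, map_mul, hconj, map_intCast, map_intCast]
  refine ⟨3 * a + 3 * b - 2, b - a, by omega, ?_, ?_⟩
  · have h1 : (4 * (Fintype.card F : ℤ) : ℂ) =
        ((3 * a + 3 * b - 2) ^ 2 + 27 * (b - a) ^ 2 : ℤ) := by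
      rw [Int.cast_natCast, ← hJJ, hJc, hJab]
      push_cast
      linear_combination (-36 * ((b : ℂ) - a) ^ 2) * hμ2
    exact_mod_cast h1
  · have h1 : (((univ.filter fun P : F × F => P.1 ^ 3 + P.2 ^ 3 = 1).card : ℤ) : ℂ) =
        ((Fintype.card F - 2 + (3 * a + 3 * b - 2) : ℤ) : ℂ) := by
      rw [Int.cast_natCast, card_add_pow_eq (by norm_num) (by norm_num) hχ hχ]
      simp only [sum_range_succ, range_zero, sum_empty, zero_add]
      have hχ1' : χ ^ 1 ≠ 1 := by rwa [pow_one]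
      rw [sum_zero_zero, sum_zero_pow (by norm_num) hχ1', sum_zero_pow (by norm_num) hχ2,
        sum_pow_zero (by norm_num) hχ1', sum_pow_zero (by norm_num) hχ2,
        sum_pow_pow (by norm_num) (by norm_num), sum_pow_pow (by norm_num) (by norm_num),
        sum_pow_pow (by norm_num) (by norm_num), sum_pow_pow (by norm_num) (by norm_num),
        pow_one, hinv, jacobiSum_inv_eq_conj, jacobiSum_comm χ⁻¹ χ, jacobiSum_nontrivial_inv hχ1,
        MulChar.val_neg_one_eq_one_of_odd_order (n := 3) (by decide) hχ3, ← hJ, hJc, hJab]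
      push_cast
      ring
    exact_mod_cast h1

/-- The number of solutions of `x ^ 3 + y ^ 3 = 1` is odd if and only if `2` is a cube. -/
theorem odd_card_cubic_iff (h3 : Fintype.card F % 3 = 1) (h2 : (2 : F) ≠ 0) :
    Odd (univ.filter fun P : F × F => P.1 ^ 3 + P.2 ^ 3 = 1).card ↔ ∃ x : F, x ^ 3 = 2 := by
  have hdvd : 3 ∣ Fintype.card F - 1 := by
    have := Fintype.card_pos (α := F)
    omega
  let α := {P : F × F // P.1 ^ 3 + P.2 ^ 3 = 1}
  let f : Function.End α := fun P => ⟨(P.1.2, P.1.1), by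
    have := P.2
    rw [add_comm]
    exact this⟩
  have hf : f ^ 2 ^ 1 = 1 := by
    funext P
    rfl
  have h := Equiv.Perm.card_fixedPoints_modEq hf
  have hfix : Fintype.card (Function.fixedPoints f) =
      (univ.filter fun x : F => x ^ 3 = 2⁻¹).card := by
    rw [← Fintype.card_subtype]
    refine Fintype.card_congr ⟨fun P => ⟨P.1.1.1, ?_⟩, fun x => ⟨⟨(x.1, x.1), ?_⟩, rfl⟩, ?_, ?_⟩
    · have h4 : P.1.1.2 = P.1.1.1 := congrArg (fun Q : α => Q.1.1) P.2
      have h5 := P.1.2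
      rw [h4] at h5
      exact eq_inv_of_mul_eq_one_left (by linear_combination h5)
    · have h5 := x.2
      simp only
      rw [h5]
      field_simp
      norm_num
    · rintro ⟨⟨⟨x, y⟩, h5⟩, h6⟩
      have h4 : y = x := congrArg (fun Q : α => Q.1.1) h6
      subst h4
      rfl
    · rintro ⟨x, hx⟩
      rfl
  rw [hfix, Fintype.card_subtype, card_pow_eq_nat hdvd (by norm_num) (inv_ne_zero h2)] at h
  have h6 : (∃ y : F, y ^ 3 = 2⁻¹) ↔ ∃ x : F, x ^ 3 = 2 := by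
    constructor
    · rintro ⟨y, hy⟩
      exact ⟨y⁻¹, by rw [inv_pow, hy, inv_inv]⟩
    · rintro ⟨y, hy⟩
      exact ⟨y⁻¹, by rw [inv_pow, hy]⟩
  rw [← h6, Nat.odd_iff, h]
  split_ifs with h7
  · simp [h7]
  · simp [h7]

end Field

/-! ### Primes -/

/-- `L²` is determined by `4 p = L² + 27 M²`. -/
theorem sq_eq_sq_of_four_mul {p : ℕ} (hp : p.Prime) {L M L' M' : ℤ}
    (h : 4 * (p : ℤ) = L ^ 2 + 27 * M ^ 2) (h' : 4 * (p : ℤ) = L' ^ 2 + 27 * M' ^ 2) :
    L ^ 2 = L' ^ 2 := by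
  have hpz : Prime (p : ℤ) := Nat.prime_iff_prime_int.mp hp
  have hp0 : (0 : ℤ) < p := by exact_mod_cast hp.pos
  have key : ∀ {L' : ℤ}, 4 * (p : ℤ) = L' ^ 2 + 27 * M' ^ 2 → (p : ℤ) ∣ L * M' - L' * M →
      L ^ 2 = L' ^ 2 := by
    intro L' h' hd
    obtain ⟨k, hk⟩ := hd
    have h1 : 16 * (p : ℤ) ^ 2 = (L * L' + 27 * M * M') ^ 2 + 27 * (L * M' - L' * M) ^ 2 := by
      have : 16 * (p : ℤ) ^ 2 = (4 * p) * (4 * p) := by ring
      rw [this]
      nth_rewrite 1 [h]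
      rw [h']
      ring
    have hk0 : k = 0 := by
      by_contra hk0
      have h2 : 1 ≤ k ^ 2 := by
        have : 0 < k ^ 2 := by positivity
        omega
      rw [hk] at h1
      nlinarith [sq_nonneg (L * L' + 27 * M * M'), sq_nonneg (p : ℤ), mul_le_mul_of_nonneg_left h2
        (sq_nonneg (p : ℤ)), pow_pos hp0 2]
    rw [hk0, mul_zero] at hk
    have h3 : 4 * (p : ℤ) * (M' ^ 2 - M ^ 2) = 0 := by
      have : 4 * (p : ℤ) * (M' ^ 2 - M ^ 2) = (L * M' - L' * M) * (L * M' + L' * M) := by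
        linear_combination M' ^ 2 * h - M ^ 2 * h'
      rw [this, hk, zero_mul]
    have h4 : M' ^ 2 - M ^ 2 = 0 := by
      rcases mul_eq_zero.mp h3 with h5 | h5
      · omega
      · exact h5
    linarith
  have hd : (p : ℤ) ∣ (L * M' - L' * M) * (L * M' + L' * M) :=
    ⟨4 * (M' ^ 2 - M ^ 2), by linear_combination M ^ 2 * h' - M' ^ 2 * h⟩
  rcases hpz.dvd_or_dvd hd with h1 | h1
  · exact key h' h1
  · have := key (L' := -L') (by rw [h']; ring) (by
      have : L * M' - -L' * M = L * M' + L' * M := by ring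
      rwa [this])
    rw [this]
    ring

section ZMod

variable {p : ℕ} [hp : Fact p.Prime]

/-- **Gauss.** If `4 p = L² + 27 M²` with `L ≡ 1 mod 3`, the equation `x³ + y³ = 1` has exactly
`p - 2 + L` solutions modulo `p`. -/
theorem card_cubic_of_eq {L M : ℤ} (hL : L % 3 = 1) (h : 4 * (p : ℤ) = L ^ 2 + 27 * M ^ 2) :
    ((univ.filter fun P : ZMod p × ZMod p => P.1 ^ 3 + P.2 ^ 3 = 1).card : ℤ) = p - 2 + L := by
  have h3 : p % 3 = 1 := by
    obtain ⟨l, hl⟩ : ∃ l, L = 3 * l + 1 := ⟨L / 3, by omega⟩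
    have h1 : (p : ℤ) = 3 * (3 * l ^ 2 + 2 * l + 9 * M ^ 2 - p) + 1 := by
      rw [hl] at h
      linarith
    omega
  obtain ⟨L', M', hL', h', hN⟩ := card_cubic (F := ZMod p) (by rw [ZMod.card]; exact h3)
  rw [ZMod.card] at h' hN
  rw [hN]
  have h1 := sq_eq_sq_of_four_mul hp.out h h'
  rcases sq_eq_sq_iff_eq_or_eq_neg.mp h1 with h2 | h2
  · rw [h2]
  · omega

/-- For `p ≡ 1 mod 3` there is exactly one `L ≡ 1 mod 3` with `4 p = L² + 27 M²`. -/
theorem existsUnique_four_mul (h3 : p % 3 = 1) :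
    ∃! L : ℤ, L % 3 = 1 ∧ ∃ M : ℤ, 4 * (p : ℤ) = L ^ 2 + 27 * M ^ 2 := by
  obtain ⟨L, M, hL, h, -⟩ := card_cubic (F := ZMod p) (by rw [ZMod.card]; exact h3)
  rw [ZMod.card] at h
  refine ⟨L, ⟨hL, M, h⟩, ?_⟩
  rintro L' ⟨hL', M', h'⟩
  rcases sq_eq_sq_iff_eq_or_eq_neg.mp (sq_eq_sq_of_four_mul hp.out h' h) with h2 | h2
  · exact h2
  · omega

/-- **Gauss.** For `p ≡ 1 mod 3`, `2` is a cube modulo `p` if and only if `p = x² + 27 y²`. -/
theorem two_cube_iff (h3 : p % 3 = 1) :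
    (∃ x : ZMod p, x ^ 3 = 2) ↔ ∃ x y : ℤ, (p : ℤ) = x ^ 2 + 27 * y ^ 2 := by
  have hp2 : p ≠ 2 := by
    rintro rfl
    norm_num at h3
  have h2 : (2 : ZMod p) ≠ 0 := by
    intro h
    have : ((2 : ℕ) : ZMod p) = 0 := by exact_mod_cast h
    rw [ZMod.natCast_eq_zero_iff] at this
    exact hp2 ((Nat.prime_dvd_prime_iff_eq hp.out Nat.prime_two).mp this)
  have hodd : p % 2 = 1 := (hp.out.eq_two_or_odd).resolve_left hp2
  obtain ⟨L, M, hL, h, hN⟩ := card_cubic (F := ZMod p) (by rw [ZMod.card]; exact h3)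
  rw [ZMod.card] at h hN
  rw [← odd_card_cubic_iff (by rw [ZMod.card]; exact h3) h2, Nat.odd_iff]
  constructor
  · intro h4
    have hLe : L % 2 = 0 := by omega
    obtain ⟨l, rfl⟩ : ∃ l, L = 2 * l := ⟨L / 2, by omega⟩
    have hMe : M % 2 = 0 := by
      by_contra hM
      obtain ⟨k, rfl⟩ : ∃ k, M = 2 * k + 1 := ⟨M / 2, by omega⟩
      have : 4 * ((p : ℤ) - l ^ 2 - 27 * (k ^ 2 + k) - 6) = 3 := by linarith
      omega
    obtain ⟨k, rfl⟩ : ∃ k, M = 2 * k := ⟨M / 2, by omega⟩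
    exact ⟨l, k, by linarith⟩
  · rintro ⟨x, y, hxy⟩
    have h5 := sq_eq_sq_of_four_mul hp.out h (L' := 2 * x) (M' := 2 * y) (by rw [hxy]; ring)
    rcases sq_eq_sq_iff_eq_or_eq_neg.mp h5 with h6 | h6 <;> omega

end ZMod

end Fermat.Agent.Cor.Diary
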