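import Fermat.Agent.Corollaries.Diary.Count

/-!
# The lemniscate over a finite field: the last entry of Gauss' diary

* `card_sq_add_pow_four`: `q ≡ 1 mod 4`: `q = a ^ 2 + b ^ 2` with `b` even, `a + b ≡ 1 mod 4` and
  `#{x ^ 2 + y ^ 4 = 1} = q - 1 - 2 a`;
* `gauss_last_entry`: for a prime `p ≡ 1 mod 4`, `p = a ^ 2 + b ^ 2`, `b` even, `a + b ≡ 1 mod 4`,
  the equation `x ^ 2 + y ^ 2 + x ^ 2 * y ^ 2 = 1` has `(a - 1) ^ 2 + b ^ 2 - 4` solutions modulo `p`
  (Gauss counts four more points at infinity).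
-/

set_option autoImplicit false

noncomputable section

namespace Fermat.Agent.Cor.Diary

open Finset

section Field

variable {F : Type*} [Field F] [Fintype F] [DecidableEq F]

/-- `#{x ^ 2 + y ^ 4 = 1} ≡ 6 mod 8` for `q ≡ 1 mod 4`. -/
theorem card_sq_add_pow_four_mod (h4 : Fintype.card F % 4 = 1) :
    (univ.filter fun P : F × F => P.1 ^ 2 + P.2 ^ 4 = 1).card % 8 = 6 := by
  have hd4 : 4 ∣ Fintype.card F - 1 := by
    have := Fintype.card_pos (α := F)
    omega
  have hd2 : 2 ∣ Fintype.card F - 1 := (by norm_num : 2 ∣ 4).trans hd4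
  have h1 : (univ.filter fun P : F × F => P.1 ^ 2 + P.2 ^ 4 = 1).card =
      ∑ u : F, (univ.filter fun x : F => x ^ 2 = u).card *
        (univ.filter fun y : F => y ^ 4 = 1 - u).card := by
    rw [card_eq_sum_card_fiberwise (f := fun P : F × F => P.1 ^ 2) (t := univ)
      (fun _ _ => by simp)]
    refine sum_congr rfl fun u _ => ?_
    rw [← card_product]
    congr 1
    ext ⟨x, y⟩
    simp only [mem_filter, mem_univ, true_and, mem_product]
    constructor
    · rintro ⟨h1, rfl⟩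
      exact ⟨rfl, by rw [← h1]; ring⟩
    · rintro ⟨rfl, h2⟩
      exact ⟨by rw [h2]; ring, rfl⟩
  have hne : (1 : F) ≠ 0 := one_ne_zero
  have hc0 : ∀ n : ℕ, 0 < n → (univ.filter fun x : F => x ^ n = 0).card = 1 := by
    intro n hn
    have : (univ.filter fun x : F => x ^ n = 0) = {0} := by
      ext x
      simp [pow_eq_zero_iff hn.ne']
    rw [this, card_singleton]
  have hc1 : ∀ n : ℕ, 0 < n → n ∣ Fintype.card F - 1 →
      (univ.filter fun x : F => x ^ n = 1).card = n := by
    intro n hn hd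
    rw [card_pow_eq_nat hd hn hne, if_pos ⟨1, one_pow n⟩]
  rw [h1, ← add_sum_erase _ _ (mem_univ (0 : F)), ← add_sum_erase _ _
    (mem_erase.mpr ⟨hne, mem_univ (1 : F)⟩), sub_zero, sub_self, hc0 2 (by norm_num),
    hc0 4 (by norm_num), hc1 2 (by norm_num) hd2, hc1 4 (by norm_num) hd4]
  have h2 : 8 ∣ ∑ u ∈ (univ.erase (0 : F)).erase 1, (univ.filter fun x : F => x ^ 2 = u).card *
        (univ.filter fun y : F => y ^ 4 = 1 - u).card := by
    refine dvd_sum fun u hu => ?_
    rw [mem_erase, mem_erase] at hu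
    rw [card_pow_eq_nat hd2 (by norm_num) hu.2.1,
      card_pow_eq_nat hd4 (by norm_num) (sub_ne_zero.mpr (Ne.symm hu.1))]
    split_ifs <;> norm_num
  omega

/-- The number of solutions of `x ^ 2 + y ^ 4 = 1`. -/
theorem card_sq_add_pow_four (h4 : Fintype.card F % 4 = 1) : ∃ a b : ℤ, b % 2 = 0 ∧
    (a + b) % 4 = 1 ∧ (Fintype.card F : ℤ) = a ^ 2 + b ^ 2 ∧
    ((univ.filter fun P : F × F => P.1 ^ 2 + P.2 ^ 4 = 1).card : ℤ) =
      Fintype.card F - 1 - 2 * a := by
  have hdvd : 4 ∣ Fintype.card F - 1 := by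
    have := Fintype.card_pos (α := F)
    omega
  have hI : IsPrimitiveRoot Complex.I 4 := by
    have := Complex.isPrimitiveRoot_exp 4 (by norm_num)
    have h1 : Complex.exp (2 * Real.pi * Complex.I / (4 : ℕ)) = Complex.I := by
      rw [show (2 * Real.pi * Complex.I / (4 : ℕ) : ℂ) = Real.pi / 2 * Complex.I by
        push_cast; ring]
      exact Complex.exp_pi_div_two_mul_I
    rwa [h1] at this
  obtain ⟨χ, hχ⟩ := MulChar.exists_mulChar_orderOf F hdvd hI
  have hχ4 : χ ^ 4 = 1 := by rw [← hχ, pow_orderOf_eq_one]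
  have hne : ∀ k : ℕ, ¬ 4 ∣ k → χ ^ k ≠ 1 := fun k hk h => hk (by
    rw [← hχ]
    exact orderOf_dvd_of_pow_eq_one h)
  have hχ1 : χ ≠ 1 := by
    have := hne 1 (by norm_num)
    rwa [pow_one] at this
  have hρ : orderOf (χ ^ 2) = 2 := by
    rw [orderOf_pow, hχ]
    norm_num
  have hρ1 : χ ^ 2 ≠ 1 := hne 2 (by norm_num)
  have hinv3 : χ ^ 3 = χ⁻¹ := by
    rw [eq_inv_iff_mul_eq_one, ← pow_succ, hχ4]
  have hinv2 : χ ^ 2 = (χ ^ 2)⁻¹ := by
    rw [eq_inv_iff_mul_eq_one, ← pow_add, hχ4]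
  set J := jacobiSum (χ ^ 2) χ with hJ
  have hJJ : J * (starRingEnd ℂ) J = Fintype.card F := by
    refine jacobiSum_mul_conj hρ1 hχ1 ?_
    rw [← pow_succ]
    exact hne 3 (by norm_num)
  obtain ⟨z, hz, hJz⟩ := exists_jacobiSum_eq_neg_one_add (F := F) (R := ℂ) (χ := χ ^ 2) (ψ := χ)
    (by norm_num) (by rw [← pow_mul, mul_comm, pow_mul, hχ4, one_pow]) hχ4 hdvd hI
  obtain ⟨a, b, rfl⟩ := mem_adjoin_quadratic (μ := Complex.I) (r := 0) (t := -1)
    (by push_cast; rw [Complex.I_sq]; ring) hz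
  have hI2 := Complex.I_sq
  have hJab : J = (2 * b - 1 : ℤ) + (-2 * a : ℤ) * Complex.I := by
    rw [hJ, hJz]
    push_cast
    linear_combination ((a : ℂ) + b * Complex.I - 2 * b) * hI2
  have hJc : (starRingEnd ℂ) J = (2 * b - 1 : ℤ) + (-2 * a : ℤ) * (-Complex.I) := by
    rw [hJab, map_add, map_mul, Complex.conj_I, map_intCast, map_intCast]
  have hq : (Fintype.card F : ℤ) = (1 - 2 * b) ^ 2 + (2 * a) ^ 2 := by
    have h1 : ((Fintype.card F : ℤ) : ℂ) = ((1 - 2 * b) ^ 2 + (2 * a) ^ 2 : ℤ) := by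
      rw [Int.cast_natCast, ← hJJ, hJc, hJab]
      push_cast
      linear_combination (-4 * (a : ℂ) ^ 2) * hI2
    exact_mod_cast h1
  have hN : ((univ.filter fun P : F × F => P.1 ^ 2 + P.2 ^ 4 = 1).card : ℤ) =
      Fintype.card F - 1 - 2 * (1 - 2 * b) := by
    have hneg : (χ ^ 2) (-1) = 1 := by
      rw [MulChar.pow_apply' _ (by norm_num), ← map_pow]
      simp
    have h1 : (((univ.filter fun P : F × F => P.1 ^ 2 + P.2 ^ 4 = 1).card : ℤ) : ℂ) =
        ((Fintype.card F - 1 - 2 * (1 - 2 * b) : ℤ) : ℂ) := by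
      rw [Int.cast_natCast, card_add_pow_eq (by norm_num) (by norm_num) hρ hχ]
      simp only [sum_range_succ, range_zero, sum_empty, zero_add]
      have hχ1' : χ ^ 1 ≠ 1 := by rwa [pow_one]
      have hρ1' : (χ ^ 2) ^ 1 ≠ 1 := by rwa [pow_one]
      rw [sum_zero_zero, sum_zero_pow (by norm_num) hχ1', sum_zero_pow (by norm_num) hρ1,
        sum_zero_pow (by norm_num) (hne 3 (by norm_num)), sum_pow_zero (by norm_num) hρ1',
        sum_pow_pow (by norm_num) (by norm_num), sum_pow_pow (by norm_num) (by norm_num),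
        sum_pow_pow (by norm_num) (by norm_num), pow_one, pow_one, hinv3]
      have e1 : jacobiSum (χ ^ 2) χ⁻¹ = (starRingEnd ℂ) J := by
        nth_rewrite 1 [hinv2]
        exact jacobiSum_inv_eq_conj
      have e2 : jacobiSum (χ ^ 2) (χ ^ 2) = -1 := by
        nth_rewrite 2 [hinv2]
        rw [jacobiSum_nontrivial_inv hρ1, hneg]
      rw [e1, e2, ← hJ, hJc, hJab]
      push_cast
      ring
    exact_mod_cast h1
  have hmod := card_sq_add_pow_four_mod h4
  obtain ⟨n, hn⟩ : ∃ n : ℕ, (univ.filter fun P : F × F => P.1 ^ 2 + P.2 ^ 4 = 1).card = n := ⟨_, rfl⟩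
  rw [hn] at hN hmod ⊢
  refine ⟨1 - 2 * b, 2 * a, by omega, ?_, hq, hN⟩
  -- the congruence modulo 4
  obtain ⟨r, hr⟩ := Int.even_mul_succ_self (b - 1)
  obtain ⟨t, ht⟩ := Int.even_mul_succ_self (a - 1)
  have e3 : (1 - 2 * b) ^ 2 = 8 * r + 1 := by linear_combination 4 * hr
  have e4 : (2 * a) ^ 2 = 8 * t + 4 * a := by linear_combination 4 * ht
  rw [e3, e4] at hq
  omega

theorem card_sq_eq_neg_one (h4 : Fintype.card F % 4 = 1) :
    (univ.filter fun x : F => x ^ 2 = -1).card = 2 := by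
  have hd2 : 2 ∣ Fintype.card F - 1 := by
    have := Fintype.card_pos (α := F)
    omega
  rw [card_pow_eq_nat hd2 (by norm_num) (neg_ne_zero.mpr one_ne_zero), if_pos]
  obtain ⟨r, hr⟩ : IsSquare (-1 : F) := FiniteField.isSquare_neg_one_iff.mpr (by omega)
  exact ⟨r, by rw [pow_two, hr]⟩

/-- Gauss' curve and the lemniscate `w ^ 2 = 1 - x ^ 4`. -/
theorem card_gauss_eq (hodd : Fintype.card F % 2 = 1) :
    (univ.filter fun P : F × F => P.1 ^ 2 + P.2 ^ 2 + P.1 ^ 2 * P.2 ^ 2 = 1).card +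
        (univ.filter fun x : F => x ^ 2 = -1).card =
      (univ.filter fun P : F × F => P.1 ^ 2 + P.2 ^ 4 = 1).card := by
  rw [← card_filter_add_card_filter_not (s := univ.filter fun P : F × F => P.1 ^ 2 + P.2 ^ 4 = 1)
    (fun P => 1 + P.2 ^ 2 ≠ 0)]
  congr 1
  · refine card_nbij' (fun P => (P.2 * (1 + P.1 ^ 2), P.1)) (fun P => (P.2, P.1 / (1 + P.2 ^ 2)))
      ?_ ?_ ?_ ?_
    · rintro ⟨x, y⟩ h
      simp only [coe_filter, mem_univ, true_and, Set.mem_ofPred_eq, mem_filter] at h ⊢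
      refine ⟨by linear_combination (1 + x ^ 2) * h, fun h0 => ?_⟩
      have h1 : (2 : F) = 0 := by linear_combination (1 + y ^ 2) * h0 - h
      have h2 : ringChar F = 2 := by
        have := ringChar.dvd (R := F) (x := 2) (by exact_mod_cast h1)
        exact (Nat.prime_dvd_prime_iff_eq (CharP.char_is_prime F (ringChar F)) Nat.prime_two).mp this
      have h3 := FiniteField.even_card_of_char_two h2
      omega
    · rintro ⟨w, x⟩ h
      simp only [coe_filter, mem_univ, true_and, Set.mem_ofPred_eq, mem_filter] at h ⊢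
      obtain ⟨h1, h2⟩ := h
      have key : w ^ 2 = (1 - x ^ 2) * (1 + x ^ 2) := by linear_combination h1
      rw [div_pow, key]
      field_simp
      ring
    · rintro ⟨x, y⟩ h
      simp only [coe_filter, mem_univ, true_and, Set.mem_ofPred_eq] at h
      have h0 : 1 + x ^ 2 ≠ 0 := by
        intro h0
        have h1 : (2 : F) = 0 := by linear_combination (1 + y ^ 2) * h0 - h
        have h2 : ringChar F = 2 := by
          have := ringChar.dvd (R := F) (x := 2) (by exact_mod_cast h1)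
          exact (Nat.prime_dvd_prime_iff_eq (CharP.char_is_prime F (ringChar F))
            Nat.prime_two).mp this
        have h3 := FiniteField.even_card_of_char_two h2
        omega
      simp only [Prod.mk.injEq, true_and]
      field_simp
    · rintro ⟨w, x⟩ h
      simp only [coe_filter, mem_univ, true_and, Set.mem_ofPred_eq, mem_filter] at h
      simp only [Prod.mk.injEq, and_true]
      field_simp [h.2]
  · refine card_nbij' (fun x => (0, x)) (fun P => P.2) ?_ ?_ ?_ ?_
    · intro x h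
      simp only [coe_filter, mem_univ, true_and, Set.mem_ofPred_eq, mem_filter] at h ⊢
      refine ⟨?_, ?_⟩
      · linear_combination (x ^ 2 - 1) * h
      · rw [h]
        simp
    · rintro ⟨w, x⟩ h
      simp only [coe_filter, mem_univ, true_and, Set.mem_ofPred_eq, mem_filter, not_not] at h ⊢
      linear_combination h.2
    · intro x _
      rfl
    · rintro ⟨w, x⟩ h
      simp only [coe_filter, mem_univ, true_and, Set.mem_ofPred_eq, mem_filter, not_not] at h
      obtain ⟨h1, h2⟩ := h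
      have h3 : w ^ 2 = 0 := by linear_combination h1 - (x ^ 2 - 1) * h2
      have h4 : w = 0 := by simpa using h3
      rw [h4]

/-- The Weierstrass form `y ^ 2 = x ^ 3 + 4 x` of the lemniscate. -/
theorem card_weierstrass_eq (h4 : Fintype.card F % 4 = 1) :
    (univ.filter fun P : F × F => P.2 ^ 2 = P.1 ^ 3 + 4 * P.1).card =
      (univ.filter fun P : F × F => P.1 ^ 2 + P.2 ^ 4 = 1).card + 1 := by
  have h20 : (2 : F) ≠ 0 := by
    intro h1
    have h2 : ringChar F = 2 := by
      have := ringChar.dvd (R := F) (x := 2) (by exact_mod_cast h1)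
      exact (Nat.prime_dvd_prime_iff_eq (CharP.char_is_prime F (ringChar F)) Nat.prime_two).mp this
    have h3 := FiniteField.even_card_of_char_two h2
    omega
  rw [← card_filter_add_card_filter_not (s := univ.filter fun P : F × F => P.1 ^ 2 + P.2 ^ 4 = 1)
    (fun P => P.2 ≠ 0), ← card_filter_add_card_filter_not
    (s := univ.filter fun P : F × F => P.2 ^ 2 = P.1 ^ 3 + 4 * P.1) (fun P => P.2 ≠ 0)]
  have e1 : ((univ.filter fun P : F × F => P.1 ^ 2 + P.2 ^ 4 = 1).filter fun P => ¬ P.2 ≠ 0).card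
      = 2 := by
    have hd2 : 2 ∣ Fintype.card F - 1 := by
      have := Fintype.card_pos (α := F)
      omega
    have h5 : (univ.filter fun x : F => x ^ 2 = 1).card = 2 := by
      rw [card_pow_eq_nat hd2 (by norm_num) one_ne_zero, if_pos ⟨1, one_pow 2⟩]
    refine (card_nbij' (fun P => P.1) (fun x => (x, 0)) ?_ ?_ ?_ ?_).trans h5
    · rintro ⟨w, x⟩ h
      simp only [coe_filter, mem_univ, true_and, Set.mem_ofPred_eq, mem_filter, not_not] at h ⊢
      obtain ⟨h1, rfl⟩ := h
      linear_combination h1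
    · intro x h
      simp only [coe_filter, mem_univ, true_and, Set.mem_ofPred_eq, mem_filter, not_not] at h ⊢
      exact ⟨by rw [h]; simp, trivial⟩
    · rintro ⟨w, x⟩ h
      simp only [coe_filter, mem_univ, true_and, Set.mem_ofPred_eq, mem_filter, not_not] at h
      rw [h.2]
    · intro x _
      rfl
  have e2 : ((univ.filter fun P : F × F => P.2 ^ 2 = P.1 ^ 3 + 4 * P.1).filter
      fun P => ¬ P.2 ≠ 0).card = 3 := by
    have h5 : ((univ.filter fun x : F => x ^ 2 = -1).card) = 2 := card_sq_eq_neg_one h4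
    have h6 : ((univ.filter fun x : F => x ^ 3 + 4 * x = 0)) =
        insert 0 ((univ.filter fun x : F => x ^ 2 = -1).image fun x => 2 * x) := by
      ext x
      simp only [mem_filter, mem_univ, true_and, mem_insert, mem_image]
      constructor
      · intro h
        have h7 : x * (x ^ 2 + 4) = 0 := by linear_combination h
        rcases mul_eq_zero.mp h7 with h8 | h8
        · exact Or.inl h8
        · refine Or.inr ⟨x / 2, ?_, by field_simp⟩
          field_simp
          linear_combination h8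
      · rintro (rfl | ⟨y, hy, rfl⟩)
        · simp
        · linear_combination 8 * y * hy
    have h7 : (univ.filter fun x : F => x ^ 3 + 4 * x = 0).card = 3 := by
      rw [h6, card_insert_of_notMem, card_image_of_injective, h5]
      · intro x y hxy
        exact mul_left_cancel₀ h20 hxy
      · simp only [mem_image, mem_filter, mem_univ, true_and, not_exists, not_and]
        intro y hy h0
        rcases mul_eq_zero.mp h0 with h8 | h8
        · exact h20 h8
        · rw [h8] at hy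
          simp at hy
    refine (card_nbij' (fun P => P.1) (fun x => (x, 0)) ?_ ?_ ?_ ?_).trans h7
    · rintro ⟨x, y⟩ h
      simp only [coe_filter, mem_univ, true_and, Set.mem_ofPred_eq, mem_filter, not_not] at h ⊢
      obtain ⟨h1, rfl⟩ := h
      rw [← h1]
      simp
    · intro x h
      simp only [coe_filter, mem_univ, true_and, Set.mem_ofPred_eq, mem_filter, not_not] at h ⊢
      exact ⟨by rw [h]; simp, trivial⟩
    · rintro ⟨x, y⟩ h
      simp only [coe_filter, mem_univ, true_and, Set.mem_ofPred_eq, mem_filter, not_not] at h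
      rw [h.2]
    · intro x _
      rfl
  rw [e1, e2]
  have e3 : ((univ.filter fun P : F × F => P.2 ^ 2 = P.1 ^ 3 + 4 * P.1).filter
      fun P => P.2 ≠ 0).card = ((univ.filter fun P : F × F => P.1 ^ 2 + P.2 ^ 4 = 1).filter
      fun P => P.2 ≠ 0).card := by
    have hw : ∀ w x : F, w ^ 2 + x ^ 4 = 1 → x ≠ 0 → w + 1 ≠ 0 := by
      intro w x h1 h2 h3
      have h5 : x ^ 4 = 0 := by linear_combination h1 - (w - 1) * h3
      exact h2 (by simpa using h5)
    refine card_nbij' (fun P => (2 * P.1 ^ 3 / P.2 ^ 2 - 1, 2 * P.1 / P.2))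
      (fun P => (2 * (P.1 + 1) / P.2 ^ 2, 4 * (P.1 + 1) / P.2 ^ 3)) ?_ ?_ ?_ ?_
    · rintro ⟨x, y⟩ h
      simp only [coe_filter, mem_univ, true_and, Set.mem_ofPred_eq, mem_filter] at h ⊢
      obtain ⟨h1, h2⟩ := h
      have hx : x ≠ 0 := by
        rintro rfl
        apply h2
        have : y ^ 2 = 0 := by linear_combination h1
        simpa using this
      refine ⟨?_, div_ne_zero (mul_ne_zero h20 hx) h2⟩
      field_simp
      linear_combination (-4 * x ^ 3) * h1
    · rintro ⟨w, x⟩ h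
      simp only [coe_filter, mem_univ, true_and, Set.mem_ofPred_eq, mem_filter] at h ⊢
      obtain ⟨h1, h2⟩ := h
      have h3 := hw w x h1 h2
      have h40 : (4 : F) ≠ 0 := by
        have : (4 : F) = 2 * 2 := by norm_num
        rw [this]
        exact mul_ne_zero h20 h20
      refine ⟨?_, div_ne_zero (mul_ne_zero h40 h3) (pow_ne_zero 3 h2)⟩
      have key : x ^ 4 = 1 - w ^ 2 := by linear_combination h1
      have e : (2 * (w + 1) / x ^ 2) ^ 3 + 4 * (2 * (w + 1) / x ^ 2) =
          8 * (w + 1) * ((w + 1) ^ 2 + x ^ 4) / x ^ 6 := by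
        field_simp
        ring
      rw [e, key]
      field_simp
      ring
    · rintro ⟨x, y⟩ h
      simp only [coe_filter, mem_univ, true_and, Set.mem_ofPred_eq, mem_filter] at h
      obtain ⟨h1, h2⟩ := h
      have hx : x ≠ 0 := by
        rintro rfl
        apply h2
        have : y ^ 2 = 0 := by linear_combination h1
        simpa using this
      have e : 2 * x ^ 3 / y ^ 2 - 1 + 1 = 2 * x ^ 3 / y ^ 2 := by ring
      simp only [Prod.mk.injEq, e]
      constructor
      · field_simp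
      · field_simp
        norm_num
    · rintro ⟨w, x⟩ h
      simp only [coe_filter, mem_univ, true_and, Set.mem_ofPred_eq, mem_filter] at h
      obtain ⟨h1, h2⟩ := h
      have h3 := hw w x h1 h2
      have h40 : (4 : F) ≠ 0 := by
        have : (4 : F) = 2 * 2 := by norm_num
        rw [this]
        exact mul_ne_zero h20 h20
      simp only [Prod.mk.injEq]
      constructor
      · field_simp
        ring
      · field_simp
        ring
  rw [e3]

/-- For `q ≡ 3 mod 4` the circle has `q + 1` points. -/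
theorem card_circle (h4 : Fintype.card F % 4 = 3) :
    (univ.filter fun P : F × F => P.1 ^ 2 + P.2 ^ 2 = 1).card = Fintype.card F + 1 := by
  have hdvd : 2 ∣ Fintype.card F - 1 := by omega
  have hm1 : IsPrimitiveRoot (-1 : ℂ) 2 := IsPrimitiveRoot.neg_one 0 (by norm_num)
  obtain ⟨χ, hχ⟩ := MulChar.exists_mulChar_orderOf F hdvd hm1
  have hχ2 : χ ^ 2 = 1 := by rw [← hχ, pow_orderOf_eq_one]
  have hχ1 : χ ≠ 1 := by
    rintro rfl
    rw [orderOf_one] at hχ
    norm_num at hχ
  have hinv : χ = χ⁻¹ := by rw [eq_inv_iff_mul_eq_one, ← pow_two, hχ2]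
  have hneg : χ (-1) = -1 := by
    have h1 : χ (-1) ^ 2 = 1 := by
      rw [← map_pow]
      simp
    rcases mul_self_eq_one_iff.mp ((pow_two _).symm.trans h1) with h2 | h2
    · exfalso
      obtain ⟨y, hy⟩ := exists_pow_eq_of_apply_eq_one hχ h2
      have h3 : IsSquare (-1 : F) := ⟨y, by rw [← hy, pow_two]⟩
      exact FiniteField.isSquare_neg_one_iff.mp h3 h4
    · exact h2
  have h1 : ((univ.filter fun P : F × F => P.1 ^ 2 + P.2 ^ 2 = 1).card : ℂ) =
      ((Fintype.card F + 1 : ℕ) : ℂ) := by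
    rw [card_add_pow_eq (by norm_num) (by norm_num) hχ hχ]
    simp only [sum_range_succ, range_zero, sum_empty, zero_add]
    have hχ1' : χ ^ 1 ≠ 1 := by rwa [pow_one]
    rw [sum_zero_zero, sum_zero_pow (by norm_num) hχ1', sum_pow_zero (by norm_num) hχ1',
      sum_pow_pow (by norm_num) (by norm_num), pow_one]
    have e : jacobiSum χ χ = 1 := by
      nth_rewrite 2 [hinv]
      rw [jacobiSum_nontrivial_inv hχ1, hneg, neg_neg]
    rw [e]
    push_cast
    ring
  exact_mod_cast h1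

/-- For `q ≡ 3 mod 4` the lemniscate has `q + 1` points. -/
theorem card_sq_add_pow_four_of_three (h4 : Fintype.card F % 4 = 3) :
    (univ.filter fun P : F × F => P.1 ^ 2 + P.2 ^ 4 = 1).card = Fintype.card F + 1 := by
  have hF : ringChar F ≠ 2 := by
    intro h
    have := FiniteField.even_card_of_char_two h
    omega
  have h1 : (univ.filter fun P : F × F => P.1 ^ 2 + P.2 ^ 4 = 1).card =
      ∑ Q ∈ univ.filter (fun Q : F × F => Q.1 ^ 2 + Q.2 ^ 2 = 1),
        (univ.filter fun y : F => y ^ 2 = Q.2).card := by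
    rw [card_eq_sum_card_fiberwise (f := fun P : F × F => (P.1, P.2 ^ 2))
      (t := univ.filter (fun Q : F × F => Q.1 ^ 2 + Q.2 ^ 2 = 1))]
    · refine sum_congr rfl fun Q hQ => ?_
      rw [mem_filter] at hQ
      refine card_nbij' (fun P => P.2) (fun y => (Q.1, y)) ?_ ?_ ?_ ?_
      · rintro ⟨x, y⟩ h
        simp only [coe_filter, mem_univ, true_and, Set.mem_ofPred_eq, mem_filter] at h ⊢
        rw [← h.2]
      · intro y h
        simp only [coe_filter, mem_univ, true_and, Set.mem_ofPred_eq, mem_filter] at h ⊢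
        refine ⟨?_, by rw [h]⟩
        rw [show y ^ 4 = (y ^ 2) ^ 2 by ring, h]
        exact hQ.2
      · rintro ⟨x, y⟩ h
        simp only [coe_filter, mem_univ, true_and, Set.mem_ofPred_eq, mem_filter] at h
        rw [← h.2]
      · intro y _
        rfl
    · rintro ⟨x, y⟩ h
      simp only [coe_filter, mem_univ, true_and, Set.mem_ofPred_eq] at h ⊢
      rw [← h]
      ring
  have h2 : ∀ t : F, ((univ.filter fun y : F => y ^ 2 = t).card : ℤ) = quadraticChar F t + 1 := by
    intro t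
    rw [← quadraticChar_card_sqrts hF t]
    congr 2
    ext x
    simp
  have hm : quadraticChar F (-1) = -1 := by
    rw [quadraticChar_neg_one_iff_not_isSquare, FiniteField.isSquare_neg_one_iff, not_not]
    exact h4
  have h3 : ∑ Q ∈ univ.filter (fun Q : F × F => Q.1 ^ 2 + Q.2 ^ 2 = 1), quadraticChar F Q.2 = 0 := by
    have h5 : ∑ Q ∈ univ.filter (fun Q : F × F => Q.1 ^ 2 + Q.2 ^ 2 = 1), quadraticChar F Q.2 =
        ∑ Q ∈ univ.filter (fun Q : F × F => Q.1 ^ 2 + Q.2 ^ 2 = 1), quadraticChar F (-Q.2) := by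
      refine sum_nbij' (fun Q => (Q.1, -Q.2)) (fun Q => (Q.1, -Q.2)) ?_ ?_ ?_ ?_ ?_
      · rintro ⟨x, y⟩ h
        simp only [mem_filter, mem_univ, true_and] at h ⊢
        rw [← h]
        ring
      · rintro ⟨x, y⟩ h
        simp only [mem_filter, mem_univ, true_and] at h ⊢
        rw [← h]
        ring
      · rintro ⟨x, y⟩ _
        simp
      · rintro ⟨x, y⟩ _
        simp
      · rintro ⟨x, y⟩ _
        simp
    have h6 : ∀ t : F, quadraticChar F (-t) = -quadraticChar F t := by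
      intro t
      rw [← neg_one_mul, map_mul, hm, neg_one_mul]
    simp only [h6, sum_neg_distrib] at h5
    linarith
  have h4' : (((univ.filter fun P : F × F => P.1 ^ 2 + P.2 ^ 4 = 1).card : ℕ) : ℤ) =
      ((Fintype.card F + 1 : ℕ) : ℤ) := by
    rw [h1, Nat.cast_sum]
    simp only [h2]
    rw [sum_add_distrib, h3, zero_add, ← card_circle h4, sum_const, nsmul_eq_mul, mul_one]
  exact_mod_cast h4'

/-- For `q ≡ 3 mod 4` Gauss' curve has `q + 1` points. -/
theorem card_gauss_of_three (h4 : Fintype.card F % 4 = 3) :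
    (univ.filter fun P : F × F => P.1 ^ 2 + P.2 ^ 2 + P.1 ^ 2 * P.2 ^ 2 = 1).card =
      Fintype.card F + 1 := by
  have h1 := card_gauss_eq (F := F) (by omega)
  have h2 : (univ.filter fun x : F => x ^ 2 = -1) = ∅ := by
    ext x
    simp only [mem_filter, mem_univ, true_and, notMem_empty, iff_false]
    intro hx
    exact FiniteField.isSquare_neg_one_iff.mp ⟨x, by rw [← hx, pow_two]⟩ h4
  rw [h2, card_empty, add_zero, card_sq_add_pow_four_of_three h4] at h1
  exact h1

end Field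

/-! ### Primes -/

/-- The representation `p = a² + b²` with `b` even is unique up to signs. -/
theorem sq_eq_sq_of_two_squares {p : ℕ} (hp : p.Prime) {a b a' b' : ℤ} (hb : b % 2 = 0)
    (ha : a % 2 = 1) (ha' : a' % 2 = 1) (h : (p : ℤ) = a ^ 2 + b ^ 2)
    (h' : (p : ℤ) = a' ^ 2 + b' ^ 2) : a ^ 2 = a' ^ 2 ∧ b ^ 2 = b' ^ 2 := by
  have hpz : Prime (p : ℤ) := Nat.prime_iff_prime_int.mp hp
  have hp0 : (0 : ℤ) < p := by exact_mod_cast hp.pos
  have key : ∀ {a' : ℤ}, a' % 2 = 1 → (p : ℤ) = a' ^ 2 + b' ^ 2 → (p : ℤ) ∣ a * b' - a' * b →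
      a ^ 2 = a' ^ 2 ∧ b ^ 2 = b' ^ 2 := by
    intro a' ha' h' hd
    obtain ⟨k, hk⟩ := hd
    have h1 : (p : ℤ) ^ 2 = (a * a' + b * b') ^ 2 + (a * b' - a' * b) ^ 2 := by
      rw [pow_two (p : ℤ)]
      nth_rewrite 1 [h]
      rw [h']
      ring
    have hne : a * a' + b * b' ≠ 0 := by
      obtain ⟨r, rfl⟩ : ∃ r, a = 2 * r + 1 := ⟨a / 2, by omega⟩
      obtain ⟨r', rfl⟩ : ∃ r, a' = 2 * r + 1 := ⟨a' / 2, by omega⟩
      obtain ⟨t, rfl⟩ : ∃ r, b = 2 * r := ⟨b / 2, by omega⟩
      intro h0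
      have : 2 * (2 * r * r' + r + r' + t * b') = -1 := by linarith
      omega
    have hpos : 0 < (a * a' + b * b') ^ 2 := by positivity
    have hk0 : k = 0 := by
      by_contra hk0
      have h2 : 1 ≤ k ^ 2 := by
        have : 0 < k ^ 2 := by positivity
        omega
      rw [hk] at h1
      nlinarith [mul_le_mul_of_nonneg_left h2 (sq_nonneg (p : ℤ))]
    rw [hk0, mul_zero] at hk
    have h3 : (p : ℤ) * (b' ^ 2 - b ^ 2) = 0 := by
      have : (p : ℤ) * (b' ^ 2 - b ^ 2) = (a * b' - a' * b) * (a * b' + a' * b) := by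
        linear_combination b' ^ 2 * h - b ^ 2 * h'
      rw [this, hk, zero_mul]
    have h4 : b' ^ 2 - b ^ 2 = 0 := (mul_eq_zero.mp h3).resolve_left hp0.ne'
    exact ⟨by linarith, by linarith⟩
  have hd : (p : ℤ) ∣ (a * b' - a' * b) * (a * b' + a' * b) :=
    ⟨b' ^ 2 - b ^ 2, by linear_combination b ^ 2 * h' - b' ^ 2 * h⟩
  rcases hpz.dvd_or_dvd hd with h1 | h1
  · exact key ha' h' h1
  · have := key (a' := -a') (by omega) (by rw [h']; ring) (by
      have : a * b' - -a' * b = a * b' + a' * b := by ring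
      rwa [this])
    rw [this.1, this.2]
    exact ⟨by ring, rfl⟩

section ZMod

variable {p : ℕ} [hp : Fact p.Prime]

theorem card_of_two_squares {a b : ℤ} (h : (p : ℤ) = a ^ 2 + b ^ 2) (hb : b % 2 = 0)
    (hab : (a + b) % 4 = 1) : p % 4 = 1 ∧
    ((univ.filter fun P : ZMod p × ZMod p => P.1 ^ 2 + P.2 ^ 4 = 1).card : ℤ) =
      p - 1 - 2 * a := by
  have ha : a % 2 = 1 := by omega
  have h4 : p % 4 = 1 := by
    obtain ⟨r, rfl⟩ : ∃ r, a = 2 * r + 1 := ⟨a / 2, by omega⟩
    obtain ⟨t, rfl⟩ : ∃ r, b = 2 * r := ⟨b / 2, by omega⟩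
    have : (p : ℤ) = 4 * (r ^ 2 + r + t ^ 2) + 1 := by rw [h]; ring
    omega
  refine ⟨h4, ?_⟩
  obtain ⟨a', b', hb', hab', h', hN⟩ := card_sq_add_pow_four (F := ZMod p)
    (by rw [ZMod.card]; exact h4)
  rw [ZMod.card] at h' hN
  rw [hN]
  obtain ⟨h1, h2⟩ := sq_eq_sq_of_two_squares hp.out hb ha (by omega) h h'
  rcases sq_eq_sq_iff_eq_or_eq_neg.mp h1 with h3 | h3 <;>
    rcases sq_eq_sq_iff_eq_or_eq_neg.mp h2 with h5 | h5 <;> omega

/-- **The last entry of Gauss' diary** (9 July 1814): if `p = a² + b²`, `b` even,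
`a + b ≡ 1 mod 4`, then `x² + y² + x² y² = 1` has `(a - 1)² + b² - 4` solutions modulo `p`. -/
theorem gauss_last_entry {a b : ℤ} (h : (p : ℤ) = a ^ 2 + b ^ 2) (hb : b % 2 = 0)
    (hab : (a + b) % 4 = 1) :
    ((univ.filter fun P : ZMod p × ZMod p =>
      P.1 ^ 2 + P.2 ^ 2 + P.1 ^ 2 * P.2 ^ 2 = 1).card : ℤ) + 4 = (a - 1) ^ 2 + b ^ 2 := by
  obtain ⟨h4, hN⟩ := card_of_two_squares h hb hab
  have h1 := card_gauss_eq (F := ZMod p) (by rw [ZMod.card]; omega)
  rw [card_sq_eq_neg_one (by rw [ZMod.card]; exact h4)] at h1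
  rw [← h1] at hN
  push_cast at hN
  linarith

/-- `#{y² = x³ + 4 x} = p - 2 a` (affine points), `p = a² + b²`, `b` even, `a + b ≡ 1 mod 4`. -/
theorem card_weierstrass {a b : ℤ} (h : (p : ℤ) = a ^ 2 + b ^ 2) (hb : b % 2 = 0)
    (hab : (a + b) % 4 = 1) :
    ((univ.filter fun P : ZMod p × ZMod p => P.2 ^ 2 = P.1 ^ 3 + 4 * P.1).card : ℤ) =
      p - 2 * a := by
  obtain ⟨h4, hN⟩ := card_of_two_squares h hb hab
  rw [card_weierstrass_eq (F := ZMod p) (by rw [ZMod.card]; exact h4)]
  push_cast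
  rw [hN]
  ring

/-- For `p ≡ 1 mod 4` there are exactly one `a` and one `|b|` as in `gauss_last_entry`. -/
theorem existsUnique_two_squares (h4 : p % 4 = 1) :
    ∃! a : ℤ, ∃ b : ℤ, (p : ℤ) = a ^ 2 + b ^ 2 ∧ b % 2 = 0 ∧ (a + b) % 4 = 1 := by
  obtain ⟨a, b, hb, hab, h, -⟩ := card_sq_add_pow_four (F := ZMod p)
    (by rw [ZMod.card]; exact h4)
  rw [ZMod.card] at h
  refine ⟨a, ⟨b, h, hb, hab⟩, ?_⟩
  rintro a' ⟨b', h', hb', hab'⟩
  obtain ⟨h1, h2⟩ := sq_eq_sq_of_two_squares hp.out hb' (by omega) (by omega) h' h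
  rcases sq_eq_sq_iff_eq_or_eq_neg.mp h1 with h3 | h3 <;>
    rcases sq_eq_sq_iff_eq_or_eq_neg.mp h2 with h5 | h5 <;> omega

end ZMod

end Fermat.Agent.Cor.Diary
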