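import Mathlib

/-!
# The biquadratic character of `2`

* `two_pow_eq` (Dirichlet's proof): `p = a ^ 2 + b ^ 2`, `a` odd, `f = b / a` mod `p`: then
  `2 ^ ((p - 1) / 4) = f ^ (a * b / 2)`;
* `two_fourth_power_iff` (Gauss): for a prime `p ≡ 1 mod 4`, `2` is a fourth power modulo `p` if
  and only if `p = x ^ 2 + 64 * y ^ 2`.
-/

set_option autoImplicit false

noncomputable section

namespace Fermat.Agent.Cor.Diary

open NumberTheorySymbols

/-- Euler's criterion for `n`-th powers. -/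
theorem exists_pow_eq_of_pow_eq_one {F : Type*} [Field F] [Fintype F] {n k : ℕ}
    (hnk : n * k = Fintype.card F - 1) (hk : 0 < k) {u : F} (hu : u ^ k = 1) :
    ∃ y, y ^ n = u := by
  classical
  obtain ⟨g, hg⟩ := IsCyclic.exists_generator (α := Fˣ)
  have hu0 : u ≠ 0 := by
    rintro rfl
    rw [zero_pow hk.ne'] at hu
    exact zero_ne_one hu
  obtain ⟨j, hj⟩ : ∃ j : ℕ, g ^ j = Units.mk0 u hu0 :=
    (mem_powers_iff_mem_zpowers.mpr (hg _) : Units.mk0 u hu0 ∈ Submonoid.powers g)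
  have hj' : (g : F) ^ j = u := by
    have := congrArg (Units.val) hj
    simpa using this
  have h1 : g ^ (j * k) = 1 := by
    rw [pow_mul, hj]
    apply Units.ext
    simpa using hu
  have h2 : orderOf g = n * k := by
    rw [orderOf_eq_card_of_forall_mem_zpowers hg, Nat.card_eq_fintype_card, Fintype.card_units,
      hnk]
  have h3 : n * k ∣ j * k := by
    rw [← h2]
    exact orderOf_dvd_of_pow_eq_one h1
  obtain ⟨l, rfl⟩ : n ∣ j := Nat.dvd_of_mul_dvd_mul_right hk h3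
  exact ⟨(g : F) ^ l, by rw [← pow_mul, mul_comm l n, hj']⟩

variable {p : ℕ} [hp : Fact p.Prime] {a b : ℕ}

theorem coprime_of_sq_add_sq (h : p = a ^ 2 + b ^ 2) : Nat.Coprime a b := by
  have h1 : (Nat.gcd a b) ^ 2 ∣ p := by
    rw [h]
    exact dvd_add (pow_dvd_pow_of_dvd (Nat.gcd_dvd_left a b) 2)
      (pow_dvd_pow_of_dvd (Nat.gcd_dvd_right a b) 2)
  have h2 : IsUnit (Nat.gcd a b) := by
    have h3 : Squarefree p := hp.out.prime.squarefree
    rw [pow_two] at h1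
    exact h3 _ h1
  exact Nat.isUnit_iff.mp h2

theorem chi8_eq (n : ℕ) (hn : n % 2 = 1) : ∃ t : ℕ, n ^ 2 = 8 * t + 1 ∧
    ZMod.χ₈ (n : ZMod 8) = (-1) ^ t := by
  have h := ZMod.χ₈_nat_eq_if_mod_eight n
  rw [h, if_neg (by omega)]
  obtain ⟨m, r, hr, rfl⟩ : ∃ m r, r < 8 ∧ n = 8 * m + r := ⟨n / 8, n % 8, by omega, by omega⟩
  have hr2 : r % 2 = 1 := by omega
  have e : (8 * m + r) % 8 = r := by omega
  rw [e]
  have hpar : ∀ s : ℕ, s % 2 = 0 → (-1 : ℤ) ^ s = 1 := fun s hs =>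
    Even.neg_one_pow (Nat.even_iff.mpr hs)
  have hpar' : ∀ s : ℕ, s % 2 = 1 → (-1 : ℤ) ^ s = -1 := fun s hs =>
    Odd.neg_one_pow (Nat.odd_iff.mpr hs)
  obtain rfl | rfl | rfl | rfl : r = 1 ∨ r = 3 ∨ r = 5 ∨ r = 7 := by omega
  · exact ⟨8 * m ^ 2 + 2 * m, by ring, by rw [hpar _ (by omega)]; norm_num⟩
  · exact ⟨8 * m ^ 2 + 6 * m + 1, by ring, by rw [hpar' _ (by omega)]; norm_num⟩
  · exact ⟨8 * m ^ 2 + 10 * m + 3, by ring, by rw [hpar' _ (by omega)]; norm_num⟩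
  · exact ⟨8 * m ^ 2 + 14 * m + 6, by ring, by rw [hpar _ (by omega)]; norm_num⟩

/-- **Dirichlet.** -/
theorem two_pow_eq (h : p = a ^ 2 + b ^ 2) (ha : a % 2 = 1) (hb : b % 2 = 0) :
    ∃ f : ZMod p, f ^ 2 = -1 ∧ (2 : ZMod p) ^ ((p - 1) / 4) = f ^ (a * (b / 2)) := by
  obtain ⟨c, rfl⟩ : ∃ c, b = 2 * c := ⟨b / 2, by omega⟩
  obtain ⟨a', rfl⟩ : ∃ r, a = 2 * r + 1 := ⟨a / 2, by omega⟩
  set a := 2 * a' + 1 with haa
  obtain ⟨k, hk⟩ : ∃ k, p = 4 * k + 1 := ⟨a' ^ 2 + a' + c ^ 2, by rw [h, haa]; ring⟩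
  have hcop := coprime_of_sq_add_sq h
  have hp4 : p % 4 = 1 := by omega
  have hodd : Odd a := ⟨a', haa⟩
  -- `(a / p) = 1`
  have h1 : J(a | p) = 1 := by
    rw [jacobiSym.quadratic_reciprocity_one_mod_four' hodd hp4]
    rw [jacobiSym.mod_left' (a₂ := ((2 * c : ℕ) : ℤ) ^ 2)]
    · exact jacobiSym.sq_one' (by rw [Int.gcd_natCast_natCast]; exact hcop.symm)
    · have : (p : ℤ) = ((2 * c : ℕ) : ℤ) ^ 2 + a * a := by rw [h]; push_cast; ring
      rw [this, Int.add_mul_emod_self_left]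
  -- `((a + b) / p) = (2 / (a + b))`
  have hodd2 : Odd (a + 2 * c) := ⟨a' + c, by rw [haa]; ring⟩
  have h2 : J((a + 2 * c : ℕ) | p) = ZMod.χ₈ ((a + 2 * c : ℕ) : ZMod 8) := by
    rw [jacobiSym.quadratic_reciprocity_one_mod_four' hodd2 hp4, ← jacobiSym.at_two hodd2]
    have h3 : J(2 * (p : ℤ) | a + 2 * c) = 1 := by
      rw [jacobiSym.mod_left' (a₂ := ((a : ℤ) - (2 * c : ℕ)) ^ 2)]
      · refine jacobiSym.sq_one' ?_
        rw [← Int.isCoprime_iff_gcd_eq_one]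
        have e1 : IsCoprime (a : ℤ) ((2 * c : ℕ) : ℤ) := Nat.isCoprime_iff_coprime.mpr hcop
        have e2 : IsCoprime (a : ℤ) ((a + 2 * c : ℕ) : ℤ) := by
          rw [show ((a + 2 * c : ℕ) : ℤ) = ((2 * c : ℕ) : ℤ) + a * 1 by push_cast; ring]
          exact (IsCoprime.add_mul_left_left_iff.mpr e1.symm).symm
        have e3 : IsCoprime (2 : ℤ) ((a + 2 * c : ℕ) : ℤ) :=
          ⟨-(a' + c), 1, by rw [haa]; push_cast; ring⟩
        have e4 : IsCoprime (2 * a : ℤ) ((a + 2 * c : ℕ) : ℤ) := e3.mul_left e2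
        have e5 : (a : ℤ) - (2 * c : ℕ) = 2 * a + ((a + 2 * c : ℕ) : ℤ) * (-1) := by
          push_cast; ring
        rw [e5]
        exact IsCoprime.add_mul_left_left_iff.mpr e4
      · have : 2 * (p : ℤ) = ((a : ℤ) - (2 * c : ℕ)) ^ 2 +
            ((a + 2 * c : ℕ) : ℤ) * ((a + 2 * c : ℕ) : ℤ) := by rw [h]; push_cast; ring
        rw [this, Int.add_mul_emod_self_left]
    rw [jacobiSym.mul_left] at h3
    rcases Int.mul_eq_one_iff_eq_one_or_neg_one.mp h3 with ⟨e1, e2⟩ | ⟨e1, e2⟩ <;> rw [e1, e2]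
  -- in `ZMod p`
  have hpow : ∀ n : ℕ, ((J((n : ℤ) | p) : ℤ) : ZMod p) = (n : ZMod p) ^ (2 * k) := by
    intro n
    rw [← jacobiSym.legendreSym.to_jacobiSym, legendreSym.eq_pow]
    have : p / 2 = 2 * k := by omega
    rw [this]
    push_cast
    rfl
  have h3 := hpow a
  rw [h1] at h3
  have h4 := hpow (a + 2 * c)
  rw [h2] at h4
  obtain ⟨t, ht, hχ⟩ := chi8_eq (a + 2 * c) (by omega)
  rw [hχ] at h4
  have ha0 : (a : ZMod p) ≠ 0 := by
    intro h0
    rw [h0, Int.cast_one, zero_pow (by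
      have := hp.out.two_le
      omega)] at h3
    exact one_ne_zero h3
  have hsum : (a : ZMod p) ^ 2 + ((2 * c : ℕ) : ZMod p) ^ 2 = 0 := by
    have e0 : ((a ^ 2 + (2 * c) ^ 2 : ℕ) : ZMod p) = 0 :=
      (congrArg (Nat.cast : ℕ → ZMod p) h.symm).trans (ZMod.natCast_self p)
    exact_mod_cast e0
  set f : ZMod p := ((2 * c : ℕ) : ZMod p) / a with hf
  have hfa : f * a = ((2 * c : ℕ) : ZMod p) := by rw [hf]; field_simp
  have hf2 : f ^ 2 = -1 := by
    have e1 : f ^ 2 * (a : ZMod p) ^ 2 = -1 * (a : ZMod p) ^ 2 := by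
      rw [← mul_pow, hfa]
      linear_combination hsum
    exact mul_right_cancel₀ (pow_ne_zero 2 ha0) e1
  refine ⟨f, hf2, ?_⟩
  have hf0 : f ≠ 0 := by
    intro h0
    rw [h0] at hf2
    norm_num at hf2
  have e1 : (p - 1) / 4 = k := by omega
  have e2 : 2 * c / 2 = c := by omega
  rw [e1, e2]
  -- `(a + b) ^ (2 k) = (2 a b) ^ k`
  have e3 : ((a + 2 * c : ℕ) : ZMod p) ^ (2 * k) = 2 ^ k * f ^ k := by
    have e4 : ((a + 2 * c : ℕ) : ZMod p) ^ 2 = 2 * f * (a : ZMod p) ^ 2 := by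
      have : 2 * f * (a : ZMod p) ^ 2 = 2 * a * (f * a) := by ring
      rw [this, hfa]
      push_cast at hsum ⊢
      linear_combination hsum
    rw [pow_mul, e4, mul_pow, mul_pow, ← pow_mul, ← h3, Int.cast_one, mul_one]
  rw [e3] at h4
  push_cast at h4
  -- `(-1) ^ t = f ^ (2 t)`, `2 t = k + a c`
  have e5 : 2 * t = k + a * c := by
    have : (a + 2 * c) ^ 2 = p + 4 * (a * c) := by rw [h]; ring
    omega
  rw [← hf2, ← pow_mul, e5, pow_add, mul_comm] at h4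
  exact (mul_right_cancel₀ (pow_ne_zero k hf0) h4).symm

/-- **Gauss.** For `p ≡ 1 mod 4`, `2` is a fourth power modulo `p` iff `p = x² + 64 y²`. -/
theorem two_fourth_power_iff (h4 : p % 4 = 1) :
    (∃ x : ZMod p, x ^ 4 = 2) ↔ ∃ x y : ℤ, (p : ℤ) = x ^ 2 + 64 * y ^ 2 := by
  have key : ∀ {a b : ℕ}, p = a ^ 2 + b ^ 2 → a % 2 = 1 → b % 2 = 0 →
      ((∃ x : ZMod p, x ^ 4 = 2) ↔ 8 ∣ b) := by
    intro a b h ha hb
    obtain ⟨f, hf2, hf⟩ := two_pow_eq h ha hb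
    obtain ⟨k, hk⟩ : ∃ k, p = 4 * k + 1 := ⟨p / 4, by omega⟩
    have hk0 : 0 < k := by
      have := hp.out.one_lt
      omega
    have e1 : (p - 1) / 4 = k := by omega
    rw [e1] at hf
    have h20 : (2 : ZMod p) ≠ 0 := by
      intro h0
      have : ((2 : ℕ) : ZMod p) = 0 := by exact_mod_cast h0
      rw [ZMod.natCast_eq_zero_iff] at this
      have := (Nat.prime_dvd_prime_iff_eq hp.out Nat.prime_two).mp this
      omega
    have hord : orderOf f = 4 := by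
      refine orderOf_eq_prime_pow (p := 2) (n := 1) ?_ ?_
      · rw [pow_one, hf2]
        intro h0
        apply h20
        linear_combination -h0
      · rw [show (2 : ℕ) ^ (1 + 1) = 2 * 2 by norm_num, pow_mul, hf2]
        norm_num
    have e2 : (∃ x : ZMod p, x ^ 4 = 2) ↔ (2 : ZMod p) ^ k = 1 := by
      constructor
      · rintro ⟨x, hx⟩
        have hx0 : x ≠ 0 := by
          rintro rfl
          apply h20
          rw [← hx]
          norm_num
        rw [← hx, ← pow_mul, show 4 * k = p - 1 by omega]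
        exact ZMod.pow_card_sub_one_eq_one hx0
      · intro h5
        exact exists_pow_eq_of_pow_eq_one (by rw [ZMod.card]; omega) hk0 h5
    rw [e2, hf, ← orderOf_dvd_iff_pow_eq_one, hord]
    have hcop : Nat.Coprime 4 a := by
      have : Nat.Coprime 2 a := by
        rw [Nat.coprime_two_left]
        exact Nat.odd_iff.mpr ha
      exact Nat.Coprime.pow_left 2 this
    rw [hcop.dvd_mul_left]
    omega
  constructor
  · intro h
    obtain ⟨a, b, hab⟩ := Nat.Prime.sq_add_sq (p := p) (by omega)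
    have hodd : (a % 2 = 1 ∧ b % 2 = 0) ∨ (a % 2 = 0 ∧ b % 2 = 1) := by
      have h1 : (a ^ 2 + b ^ 2) % 2 = 1 := by omega
      rw [Nat.add_mod, Nat.pow_mod, Nat.pow_mod b] at h1
      rcases Nat.mod_two_eq_zero_or_one a with h2 | h2 <;>
        rcases Nat.mod_two_eq_zero_or_one b with h3 | h3 <;> simp [h2, h3] at h1 ⊢
    rcases hodd with ⟨ha, hb⟩ | ⟨ha, hb⟩
    · obtain ⟨c, rfl⟩ := (key hab.symm ha hb).mp h
      exact ⟨a, c, by rw [← hab]; push_cast; ring⟩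
    · obtain ⟨c, rfl⟩ := (key (by rw [← hab]; ring) hb ha).mp h
      exact ⟨b, c, by rw [← hab]; push_cast; ring⟩
  · rintro ⟨x, y, hxy⟩
    have h1 : p = x.natAbs ^ 2 + (8 * y.natAbs) ^ 2 := by
      zify
      rw [hxy, sq_abs, mul_pow, sq_abs]
      norm_num
    refine (key h1 ?_ (by omega)).mpr (dvd_mul_right 8 _)
    by_contra hx
    have h2 : x.natAbs % 2 = 0 := by omega
    obtain ⟨r, hr⟩ : ∃ r, x.natAbs = 2 * r := ⟨x.natAbs / 2, by omega⟩
    rw [hr] at h1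
    have : p = 2 * (2 * r ^ 2 + 32 * y.natAbs ^ 2) := by rw [h1]; ring
    omega

end Fermat.Agent.Cor.Diary
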